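import Fermat.Agent.F4.HyperPair
import Fermat.Agent.F4.DDT.Basic
import Fermat.Agent.MU.F4.PT.Abs.Iota
import Fermat.Agent.F4.PT.Abs.Deg0
import Fermat.Agent.MU.F4.BR.Smooth
import Fermat.Agent.MU.F4.BR.LevelsBridge

section MergeWrap_F4_PT_Abs_Nat -- from F4/PT/Abs/Nat.lean

/-!
# F4 / PT / Abs / Nat : naturality of the pairings in the complex and under restriction

* `pta_homCxPost_shortExact` : `Hom(N, -)` preserves termwise short exact sequences of complexes;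
* `pta_cup1_post`, `pta_cup2_post` : covariant naturality of `cup1`, `cup2` in `K`;
* `pta_cup1_res`, `pta_cup2_res` : compatibility with restriction along `r : H →* G`;
* `pta_resHomT1_D0`, `pta_resHomT2_D1` : restriction commutes with the differentials;
* `pta_isSmooth_res`, `IsSmooth.pta_mono`, `pta_ZZ2_mono`, `pta_BB2_mono`.
-/

set_option autoImplicit false

open CategoryTheory Module groupCohomology

namespace Fermat.Agent.F4

variable {k G : Type} [Field k] [Group G]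

/-! ### `Hom(N, -)` is exact -/

section HomExact

variable (N : Rep.{0} k G) {K' K K'' : Cx k G} {f : CxHom K' K} {g : CxHom K K''}

private lemma pt_exists_lift {V W : Type} [AddCommGroup V] [Module k V] [AddCommGroup W]
    [Module k W] (φ : V →ₗ[k] W) (hφ : Function.Surjective φ) (u : N →ₗ[k] W) :
    ∃ v : N →ₗ[k] V, ∀ n, φ (v n) = u n := by
  obtain ⟨s, hs⟩ := φ.exists_rightInverse_of_surjective (LinearMap.range_eq_top.2 hφ)
  refine ⟨s.comp u, fun n => ?_⟩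
  exact congrArg (fun ψ : W →ₗ[k] W => ψ (u n)) hs

private lemma pt_exists_factor {V W : Type} [AddCommGroup V] [Module k V] [AddCommGroup W]
    [Module k W] (φ : V →ₗ[k] W) (hφ : Function.Injective φ) (u : N →ₗ[k] W)
    (hu : ∀ n, ∃ y, φ y = u n) : ∃ v : N →ₗ[k] V, ∀ n, φ (v n) = u n := by
  obtain ⟨r, hr⟩ := φ.exists_leftInverse_of_injective (LinearMap.ker_eq_bot.2 hφ)
  refine ⟨r.comp u, fun n => ?_⟩
  obtain ⟨y, hy⟩ := hu n
  show φ (r (u n)) = u n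
  rw [← hy]
  congr 1
  exact congrArg (fun ψ : V →ₗ[k] V => ψ y) hr

/-- `0 → Hom(N, K') → Hom(N, K) → Hom(N, K'') → 0` is termwise exact. -/
theorem pta_homCxPost_shortExact (h : CxShortExact f g) :
    CxShortExact (homCxPost N f) (homCxPost N g) := by
  refine ⟨?_, ?_, ?_, ?_, ?_, ?_⟩
  · intro u v huv
    refine LinearMap.ext fun n => h.inj0 ?_
    exact congrArg (fun φ : N →ₗ[k] K.K0 => φ n) huv
  · intro u v huv
    refine LinearMap.ext fun n => h.inj1 ?_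
    exact congrArg (fun φ : N →ₗ[k] K.K1 => φ n) huv
  · intro u
    obtain ⟨v, hv⟩ := pt_exists_lift N g.f0 h.surj0 u
    exact ⟨v, LinearMap.ext hv⟩
  · intro u
    obtain ⟨v, hv⟩ := pt_exists_lift N g.f1 h.surj1 u
    exact ⟨v, LinearMap.ext hv⟩
  · intro u
    constructor
    · intro hu
      have hu' : ∀ n, ∃ y, f.f0 y = (u : N →ₗ[k] K.K0) n := fun n =>
        (h.exact0 _).1 (congrArg (fun φ : N →ₗ[k] K''.K0 => φ n) hu)
      obtain ⟨v, hv⟩ := pt_exists_factor N f.f0 h.inj0 u hu'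
      exact ⟨v, LinearMap.ext hv⟩
    · rintro ⟨v, rfl⟩
      refine LinearMap.ext fun n => ?_
      exact (h.exact0 _).2 ⟨(v : N →ₗ[k] K'.K0) n, rfl⟩
  · intro u
    constructor
    · intro hu
      have hu' : ∀ n, ∃ y, f.f1 y = (u : N →ₗ[k] K.K1) n := fun n =>
        (h.exact1 _).1 (congrArg (fun φ : N →ₗ[k] K''.K1 => φ n) hu)
      obtain ⟨v, hv⟩ := pt_exists_factor N f.f1 h.inj1 u hu'
      exact ⟨v, LinearMap.ext hv⟩
    · rintro ⟨v, rfl⟩
      refine LinearMap.ext fun n => ?_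
      exact (h.exact1 _).2 ⟨(v : N →ₗ[k] K'.K1) n, rfl⟩

end HomExact

/-! ### Naturality of the pairings in `K` -/

section Post

variable (N : Rep.{0} k G) {K L : Cx k G} (φ : CxHom K L)

theorem pta_cup1_post (e : T1 (homCx N K)) (y : G → N) :
    cup1 N L ((homCxPost N φ).t1 e) y = φ.t2 (cup1 N K e y) := rfl

theorem pta_cup2_post (z : T2 (homCx N K)) (n : N) :
    cup2 N L ((homCxPost N φ).t2 z) n = φ.t2 (cup2 N K z n) := rfl

lemma CxHom.pta_onT1_eq : φ.onT1 = φ.t1 := rfl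

lemma CxHom.pta_onT2_eq : φ.onT2 = φ.t2 := rfl

lemma CxHom.pta_mapZZ1_eq (𝓤 : Levels G) : φ.mapZZ1 𝓤 = φ.zz1 𝓤 := rfl

lemma CxHom.pta_mapZZ2_eq (𝓤 : Levels G) : φ.mapZZ2 𝓤 = φ.zz2 𝓤 := rfl

end Post

/-! ### Restriction -/

section Res

variable {H : Type} [Group H] (r : H →* G) (𝓤 : Levels G) (N : Rep.{0} k G) (K : Cx k G)

lemma pta_isSmooth_res {A : Rep.{0} k G} (hA : IsSmooth 𝓤 A) :
    IsSmooth (𝓤.comap r) (Rep.res r A) := by
  intro a
  obtain ⟨U, hU, hfix⟩ := hA a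
  exact ⟨U.comap r, ⟨U, hU, rfl⟩, fun h hh => hfix (r h) hh⟩

lemma pta_cx_smooth_res {K : Cx k G} (hK : K.Smooth 𝓤) : (K.res r).Smooth (𝓤.comap r) :=
  ⟨pta_isSmooth_res r 𝓤 hK.1, pta_isSmooth_res r 𝓤 hK.2⟩

theorem pta_cup1_res (e : T1 (homCx N K)) (y : G → N) :
    cup1 (Rep.res r N) (K.res r) (resHomT1 r N K e) (fun h => y (r h))
      = resT2 r K (cup1 N K e y) := rfl

theorem pta_cup2_res (z : T2 (homCx N K)) (n : N) :
    cup2 (Rep.res r N) (K.res r) (resHomT2 r N K z) n = resT2 r K (cup2 N K z n) := rfl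

lemma pta_resHomT1_D0 (x : (homCx N K).K0) :
    resHomT1 r N K (D0 (homCx N K) x) = D0 (homCx (Rep.res r N) (K.res r)) x := by
  refine Prod.ext ?_ rfl
  funext h
  refine LinearMap.ext fun n => ?_
  show K.K0.ρ (r h) ((x : N →ₗ[k] K.K0) (N.ρ ((r h)⁻¹) n)) - (x : N →ₗ[k] K.K0) n
    = K.K0.ρ (r h) ((x : N →ₗ[k] K.K0) (N.ρ (r h⁻¹) n)) - (x : N →ₗ[k] K.K0) n
  rw [map_inv r]

lemma pta_resHomT1_mem_BB1 {c : T1 (homCx N K)} (hc : c ∈ BB1 (homCx N K)) :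
    resHomT1 r N K c ∈ BB1 (homCx (Rep.res r N) (K.res r)) := by
  obtain ⟨x, rfl⟩ := (mem_BB1_iff _ _).1 hc
  exact (mem_BB1_iff _ _).2 ⟨x, (pta_resHomT1_D0 r N K x).symm⟩

lemma pta_resHomT2_D1 (c : T1 (homCx N K)) :
    resHomT2 r N K (D1 (homCx N K) c) = D1 (homCx (Rep.res r N) (K.res r)) (resHomT1 r N K c) := by
  refine Prod.ext ?_ ?_
  · funext p
    refine LinearMap.ext fun n => ?_
    show K.K0.ρ (r p.1) ((c.1 (r p.2) : N →ₗ[k] K.K0) (N.ρ ((r p.1)⁻¹) n))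
        - (c.1 (r p.1 * r p.2) : N →ₗ[k] K.K0) n + (c.1 (r p.1) : N →ₗ[k] K.K0) n
      = K.K0.ρ (r p.1) ((c.1 (r p.2) : N →ₗ[k] K.K0) (N.ρ (r p.1⁻¹) n))
        - (c.1 (r (p.1 * p.2)) : N →ₗ[k] K.K0) n + (c.1 (r p.1) : N →ₗ[k] K.K0) n
    rw [map_inv r, map_mul r]
  · funext h
    refine LinearMap.ext fun n => ?_
    show K.d ((c.1 (r h) : N →ₗ[k] K.K0) n)
        - (K.K1.ρ (r h) ((c.2 : N →ₗ[k] K.K1) (N.ρ ((r h)⁻¹) n)) - (c.2 : N →ₗ[k] K.K1) n)
      = K.d ((c.1 (r h) : N →ₗ[k] K.K0) n)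
        - (K.K1.ρ (r h) ((c.2 : N →ₗ[k] K.K1) (N.ρ (r h⁻¹) n)) - (c.2 : N →ₗ[k] K.K1) n)
    rw [map_inv r]

lemma pta_resHomT2_mem_BB2 {z : T2 (homCx N K)} (hz : z ∈ BB2 𝓤 (homCx N K)) :
    resHomT2 r N K z ∈ BB2 (𝓤.comap r) (homCx (Rep.res r N) (K.res r)) := by
  obtain ⟨c, hc, rfl⟩ := (mem_BB2_iff 𝓤 _ z).1 hz
  refine (mem_BB2_iff _ _ _).2 ⟨resHomT1 r N K c, ?_, (pta_resHomT2_D1 r N K c).symm⟩
  exact IsLC₁.comp_hom 𝓤 r hc

end Res

/-! ### Change of levels -/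

section Levels

variable {𝓤 𝓥 : Levels G} (h : 𝓤.sets ⊆ 𝓥.sets)

include h in
lemma IsSmooth.pta_mono {A : Rep.{0} k G} (hA : IsSmooth 𝓤 A) : IsSmooth 𝓥 A := by
  intro a
  obtain ⟨U, hU, hfix⟩ := hA a
  exact ⟨U, h hU, hfix⟩

include h in
lemma Cx.Smooth.pta_mono {K : Cx k G} (hK : K.Smooth 𝓤) : K.Smooth 𝓥 :=
  ⟨IsSmooth.pta_mono h hK.1, IsSmooth.pta_mono h hK.2⟩

include h in
lemma pta_ZZ2_mono (K : Cx k G) : ZZ2 𝓤 K ≤ ZZ2 𝓥 K := by
  intro z hz
  obtain ⟨h1, h2, h3, h4⟩ := (mem_ZZ2_iff 𝓤 K z).1 hz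
  refine (mem_ZZ2_iff 𝓥 K z).2 ⟨h1, h2, ?_, ?_⟩
  · obtain ⟨U, hU, hUf⟩ := h3
    exact ⟨U, h hU, hUf⟩
  · obtain ⟨U, hU, hUf⟩ := h4
    exact ⟨U, h hU, hUf⟩

include h in
lemma pta_BB2_mono (K : Cx k G) : BB2 𝓤 K ≤ BB2 𝓥 K := by
  intro z hz
  obtain ⟨c, hc, rfl⟩ := (mem_BB2_iff 𝓤 K z).1 hz
  refine (mem_BB2_iff 𝓥 K _).2 ⟨c, ?_, rfl⟩
  obtain ⟨U, hU, hUf⟩ := hc
  exact ⟨U, h hU, hUf⟩

end Levels

end Fermat.Agent.F4
end MergeWrap_F4_PT_Abs_Nat

section MergeWrap_F4_PT_Abs_Sha -- from F4/PT/Abs/Sha.lean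

/-!
# F4 / PT / Abs / Sha : the connecting map `δ` and the two exactness statements

`D : GlobalDatum p S`, `M`, `M'` finite smooth, `θ : M ≃ Hom(M', 𝔽_p(1))` equivariant.
* `ptaDelta : HH¹(Hom(M', KC)) → H²(G_S, M)` : connecting map of
  `0 → Hom(M', μ_p) → Hom(M', KJ) → Hom(M', KC) → 0`, followed by `Θ` (`Abs/Deg0.lean`);
* `ptaExactX : range β = ker δ`;
* `ptaExactH2 : range δ = sha2sm S M` (Shapiro in degree 2, local DDT for `(K_q, inv_q)` and for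
  `(μ_p, invAll)`, and the compatibility `inv_ε`).
-/

set_option autoImplicit false

open CategoryTheory Module groupCohomology ExtCitation

namespace Fermat.Agent.F4

variable {p : ℕ} [Fact p.Prime] {S : Finset Nat.Primes} (D : GlobalDatum p S)
  (M M' : Rep.{0} (ZMod p) GQ)

/-! ### The connecting map -/

lemma pta_ses : CxShortExact (homCxPost M' D.f) (homCxPost M' D.g) :=
  pta_homCxPost_shortExact M' D.exact

lemma pta_smoothJ (hM' : IsSmooth (levelsS S) M') (hfin' : Module.Finite (ZMod p) M') :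
    (homCx M' D.KJ).Smooth (levelsS S) :=
  homCx_smooth (levelsS S) D.KJ D.smoothJ M' hM' hfin'

/-- The connecting map `Ext¹(M', C) → Ext²(M', μ_p)`. -/
noncomputable def ptaConn (hM' : IsSmooth (levelsS S) M') (hfin' : Module.Finite (ZMod p) M') :
    HH1 (levelsS S) (homCx M' D.KC) →ₗ[ZMod p]
      HH2 (levelsS S) (homCx M' (Cx.deg0 (Fp1 p))) :=
  (pta_ses D M').conn1 (pta_smoothJ D M' hM' hfin')

variable {M M'} in
/-- `δ : Ext¹(M', C) → H²(G_S, M)`. -/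
noncomputable def ptaDelta (hM' : IsSmooth (levelsS S) M') (hfin' : Module.Finite (ZMod p) M')
    (θ : M ≃ₗ[ZMod p] (M' →ₗ[ZMod p] Fp1 p))
    (hθ : ∀ (g : GQ) (m : M) (m' : M'),
      θ (M.ρ g m) m' = (Fp1 p).ρ g (θ m (M'.ρ g⁻¹ m'))) :
    HH1 (levelsS S) (homCx M' D.KC) →ₗ[ZMod p] H2sm (levelsS S) M :=
  (ptTheta (levelsS S) θ hθ).comp (ptaConn D M' hM' hfin')

variable {M M'} in
theorem ptaExactX (hM' : IsSmooth (levelsS S) M') (hfin' : Module.Finite (ZMod p) M')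
    (θ : M ≃ₗ[ZMod p] (M' →ₗ[ZMod p] Fp1 p))
    (hθ : ∀ (g : GQ) (m : M) (m' : M'),
      θ (M.ρ g m) m' = (Fp1 p).ρ g (θ m (M'.ρ g⁻¹ m'))) :
    LinearMap.range (ptBeta D M') = LinearMap.ker (ptaDelta D hM' hfin' θ hθ) := by
  ext x
  rw [LinearMap.mem_range, LinearMap.mem_ker]
  show (∃ y, ptBeta D M' y = x) ↔ ptTheta (levelsS S) θ hθ (ptaConn D M' hM' hfin' x) = 0
  rw [map_eq_zero_iff _ (ptTheta_injective (levelsS S) θ hθ)]
  exact ((pta_ses D M').exact_HH1_right (pta_smoothJ D M' hM' hfin') x).symm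

/-! ### Global step: Shapiro in degree 2 -/

theorem pta_shapiro2_iff (hM' : IsSmooth (levelsS S) M') (hfin' : Module.Finite (ZMod p) M')
    (z : ↥(ZZ2 (levelsS S) (homCx M' D.KJ))) :
    (z : T2 (homCx M' D.KJ)) ∈ BB2 (levelsS S) (homCx M' D.KJ) ↔
      ∀ q : ↥S, (homCxPost (Rep.res (primeLocalToGlobal q.1) M') (D.ev q)).onT2
          (resHomT2 (primeLocalToGlobal q.1) M' D.KJ z.1)
        ∈ BB2 (locLevelsS S q.1) (homCx (Rep.res (primeLocalToGlobal q.1) M') (D.loc q).K) := by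
  constructor
  · intro h q
    exact CxHom.onT2_mem_BB2 _ _ (pta_resHomT2_mem_BB2 (primeLocalToGlobal q.1) (levelsS S) M'
      D.KJ h)
  · exact D.shapiro2 M' hM' hfin' z

/-! ### Local step -/

section Local

variable {M M'} (q : ↥S)
  (θ : M ≃ₗ[ZMod p] (M' →ₗ[ZMod p] Fp1 p))
  (hθ : ∀ (g : GQ) (m : M) (m' : M'),
    θ (M.ρ g m) m' = (Fp1 p).ρ g (θ m (M'.ρ g⁻¹ m')))

/-- `θ` as an isomorphism of modules over the local group at `q`. -/
noncomputable def ptaθloc (q : Nat.Primes) (θ : M ≃ₗ[ZMod p] (M' →ₗ[ZMod p] Fp1 p)) :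
    (Rep.res (primeLocalToGlobal q) M) ≃ₗ[ZMod p]
      ((Rep.res (primeLocalToGlobal q) M') →ₗ[ZMod p] (Rep.res (primeLocalToGlobal q) (Fp1 p))) :=
  θ

include hθ in
lemma ptaθloc_equivariant (q : Nat.Primes) (h : primeLocalGaloisGroup q)
    (m : Rep.res (primeLocalToGlobal q) M) (m' : Rep.res (primeLocalToGlobal q) M') :
    ptaθloc q θ ((Rep.res (primeLocalToGlobal q) M).ρ h m) m'
      = (Rep.res (primeLocalToGlobal q) (Fp1 p)).ρ h
          (ptaθloc q θ m ((Rep.res (primeLocalToGlobal q) M').ρ h⁻¹ m')) := by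
  have := hθ (primeLocalToGlobal q h) m m'
  rw [← map_inv (primeLocalToGlobal q)] at this
  exact this

/-- `𝔽_p(1)` is smooth for all levels. -/
lemma pta_isSmooth_Fp1_all : IsSmooth levelsAll (Fp1 p) :=
  IsSmooth.pta_mono (levelsS_sets_subset {pPrime p})
    (isSmooth_Fp1 {pPrime p} (Finset.mem_singleton_self _))

lemma pta_smooth_locMu (q : Nat.Primes) : (locMu p q).Smooth (locLevelsAll q) := by
  refine ⟨pta_isSmooth_res (primeLocalToGlobal q) levelsAll pta_isSmooth_Fp1_all, ?_⟩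
  intro a
  obtain ⟨U, hU⟩ := (locLevelsAll q).nonempty
  exact ⟨U, hU, fun _ _ => rfl⟩

/-- DDT for the local datum `(K_q, inv_q)`: `α²` is injective. -/
theorem pta_ddt_loc (hM' : IsSmooth (levelsS S) M') (hfin' : Module.Finite (ZMod p) M') :
    A2Inj (locLevelsS S q.1) (D.loc q).K (Rep.res (primeLocalToGlobal q.1) M') (D.loc q).inv :=
  (ddt_primeTo (locLevelsS S q.1) (D.loc q).K (D.loc q).smooth (D.loc q).inv (D.loc q).a2inj
    (D.loc q).a1surj _ (pta_isSmooth_res (primeLocalToGlobal q.1) (levelsS S) hM')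
    (pt_finite_res (primeLocalToGlobal q.1) hfin')).1

/-- DDT for `(μ_p, invAll)` over the full local group. -/
theorem pta_ddt_locAll (hM' : IsSmooth (levelsS S) M') (hfin' : Module.Finite (ZMod p) M') :
    A2Inj (locLevelsAll q.1) (locMu p q.1) (Rep.res (primeLocalToGlobal q.1) M')
      (D.loc q).invAll :=
  (ddt_primeTo (locLevelsAll q.1) (locMu p q.1) (pta_smooth_locMu q.1) (D.loc q).invAll
    (D.loc q).a2injAll (D.loc q).a1surjAll (Rep.res (primeLocalToGlobal q.1) M')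
    (pta_isSmooth_res (primeLocalToGlobal q.1) levelsAll
      (IsSmooth.pta_mono (levelsS_sets_subset S) hM'))
    (pt_finite_res (primeLocalToGlobal q.1) hfin')).1

/-- The local cochain `c_q = c ∘ (r × r)`. -/
noncomputable def ptaResC (q : Nat.Primes) (c : GQ × GQ → M) :
    primeLocalGaloisGroup q × primeLocalGaloisGroup q → Rep.res (primeLocalToGlobal q) M :=
  fun h => c (primeLocalToGlobal q h.1, primeLocalToGlobal q h.2)

/-- The local cochain `w_q = (θ ∘ c_q, 0)` of `Hom(M', μ_p)` over the local group. -/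
noncomputable def ptaW (q : Nat.Primes) (θ : M ≃ₗ[ZMod p] (M' →ₗ[ZMod p] Fp1 p)) (c : GQ × GQ → M) :
    T2 (homCx (Rep.res (primeLocalToGlobal q) M') (locMu p q)) :=
  ptToHom (ptaθloc q θ) (ptaResC q c)

include hθ in
lemma ptaW_mem_ZZ2 (c : ↥(Z2 (levelsS S) M)) :
    ptaW q.1 θ c.1 ∈ ZZ2 (locLevelsS S q.1)
      (homCx (Rep.res (primeLocalToGlobal q.1) M') (locMu p q.1)) :=
  (ptToHom_mem_ZZ2_iff (locLevelsS S q.1) (ptaθloc q.1 θ) (ptaθloc_equivariant θ hθ q.1) _).2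
    (Z2res (levelsS S) M (primeLocalToGlobal q.1) c).2

/-- (b) evaluation after restriction of `f_* (θ ∘ c, 0)` is `ε_* w_q`. -/
lemma pta_ev_res_eq (c : GQ × GQ → M) :
    (homCxPost (Rep.res (primeLocalToGlobal q.1) M') (D.ev q)).onT2
        (resHomT2 (primeLocalToGlobal q.1) M' D.KJ ((homCxPost M' D.f).t2 (ptToHom θ c)))
      = (homCxPost (Rep.res (primeLocalToGlobal q.1) M') (D.loc q).ε).t2 (ptaW q.1 θ c) := by
  refine Prod.ext ?_ ?_
  · funext h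
    refine LinearMap.ext fun n => ?_
    exact D.ev_f q _
  · funext h
    refine LinearMap.ext fun n => ?_
    have e1 : ∀ x : (Cx.deg0 (Fp1 p)).K1, D.f.f1 x = 0 := fun x => by
      rw [show x = 0 from Subsingleton.elim (α := PUnit.{1}) _ _, map_zero]
    have e2 : ∀ x : (locMu p q.1).K1, (D.loc q).ε.f1 x = 0 := fun x => by
      rw [show x = 0 from Subsingleton.elim (α := PUnit.{1}) _ _, map_zero]
    exact (congrArg (D.ev q).f1 (e1 _)).trans ((map_zero (D.ev q).f1).trans (e2 _).symm)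

include hθ in
/-- (c)–(f): the local criterion. -/
theorem pta_local_iff (hM' : IsSmooth (levelsS S) M') (hfin' : Module.Finite (ZMod p) M')
    (c : ↥(Z2 (levelsS S) M)) :
    (homCxPost (Rep.res (primeLocalToGlobal q.1) M') (D.loc q).ε).t2 (ptaW q.1 θ c.1)
        ∈ BB2 (locLevelsS S q.1) (homCx (Rep.res (primeLocalToGlobal q.1) M') (D.loc q).K)
      ↔ ptaResC q.1 c.1 ∈ B2 (locLevelsAll q.1) (Rep.res (primeLocalToGlobal q.1) M) := by
  have hw := ptaW_mem_ZZ2 q θ hθ c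
  have hw' : ptaW q.1 θ c.1 ∈ ZZ2 (locLevelsAll q.1)
      (homCx (Rep.res (primeLocalToGlobal q.1) M') (locMu p q.1)) :=
    pta_ZZ2_mono (locLevelsS_subset S q.1) _ hw
  have hZ : (homCxPost (Rep.res (primeLocalToGlobal q.1) M') (D.loc q).ε).t2 (ptaW q.1 θ c.1)
      ∈ ZZ2 (locLevelsS S q.1) (homCx (Rep.res (primeLocalToGlobal q.1) M') (D.loc q).K) :=
    CxHom.t2_mem_ZZ2 _ _ hw
  -- the key identity of invariants
  have key : ∀ (n' : Rep.res (primeLocalToGlobal q.1) M')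
      (hn' : ∀ g, (Rep.res (primeLocalToGlobal q.1) M').ρ g n' = n'),
      (D.loc q).inv (HH2π _ _ (cupZ2 (locLevelsS S q.1) (D.loc q).K _ ⟨_, hZ⟩ n' hn'))
        = (D.loc q).invAll (HH2π _ _ (cupZ2 (locLevelsAll q.1) (locMu p q.1) _
            ⟨_, hw'⟩ n' hn')) := by
    intro n' hn'
    have h1 := (D.loc q).inv_ε (cup2 _ (locMu p q.1) (ptaW q.1 θ c.1) n')
      (cup2_mem_ZZ2 _ _ _ hw hn') (cup2_mem_ZZ2 _ _ _ hw' hn')
    exact h1
  rw [← ptToHom_mem_BB2_iff (locLevelsAll q.1) (ptaθloc q.1 θ) (ptaθloc_equivariant θ hθ q.1)]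
  constructor
  · intro hB
    refine pta_ddt_locAll D q hM' hfin' ⟨_, hw'⟩ fun n' hn' => ?_
    rw [← key n' hn']
    have h0 : HH2π (locLevelsS S q.1) (D.loc q).K
        (cupZ2 (locLevelsS S q.1) (D.loc q).K _ ⟨_, hZ⟩ n' hn') = 0 := by
      rw [HH2π_eq_zero_iff]
      exact cup2_mem_BB2 _ _ _ hB n' hn'
    rw [h0, map_zero]
  · intro hB
    refine pta_ddt_loc D q hM' hfin' ⟨_, hZ⟩ fun n' hn' => ?_
    rw [key n' hn']
    have h0 : HH2π (locLevelsAll q.1) (locMu p q.1)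
        (cupZ2 (locLevelsAll q.1) (locMu p q.1) _ ⟨_, hw'⟩ n' hn') = 0 := by
      rw [HH2π_eq_zero_iff]
      exact cup2_mem_BB2 _ _ _ hB n' hn'
    rw [h0, map_zero]

end Local

/-! ### Exactness at `H²` -/

variable {M M'} in
lemma pta_mem_sha2sm_iff (c : ↥(Z2 (levelsS S) M)) :
    H2smπ (levelsS S) M c ∈ sha2sm S M ↔
      ∀ q : ↥S, ptaResC q.1 c.1 ∈ B2 (locLevelsAll q.1) (Rep.res (primeLocalToGlobal q.1) M) := by
  rw [sha2sm, Submodule.mem_iInf]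
  refine forall_congr' fun q => ?_
  rw [LinearMap.mem_ker]
  exact pta_H2smπ_eq_zero_iff (locLevelsAll q.1) _

variable {M M'} in
theorem ptaExactH2 (hM' : IsSmooth (levelsS S) M') (hfin' : Module.Finite (ZMod p) M')
    (θ : M ≃ₗ[ZMod p] (M' →ₗ[ZMod p] Fp1 p))
    (hθ : ∀ (g : GQ) (m : M) (m' : M'),
      θ (M.ρ g m) m' = (Fp1 p).ρ g (θ m (M'.ρ g⁻¹ m'))) :
    LinearMap.range (ptaDelta D hM' hfin' θ hθ) = sha2sm S M := by
  ext x
  obtain ⟨c, rfl⟩ := pta_H2smπ_surjective (levelsS S) M x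
  rw [LinearMap.mem_range, pta_mem_sha2sm_iff]
  have hfz : (homCxPost M' D.f).t2 (ptToHom θ c.1) ∈ ZZ2 (levelsS S) (homCx M' D.KJ) :=
    CxHom.t2_mem_ZZ2 _ _ (ptToHomZ (levelsS S) θ hθ c).2
  have hL : (∃ y, ptaDelta D hM' hfin' θ hθ y = H2smπ (levelsS S) M c) ↔
      (homCxPost M' D.f).t2 (ptToHom θ c.1) ∈ BB2 (levelsS S) (homCx M' D.KJ) := by
    constructor
    · rintro ⟨y, hy⟩
      have h1 : ptaConn D M' hM' hfin' y = HH2π _ _ (ptToHomZ (levelsS S) θ hθ c) := by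
        apply ptTheta_injective (levelsS S) θ hθ
        rw [ptTheta_ptToHomZ]
        exact hy
      have h2 := ((pta_ses D M').exact_HH2_left (pta_smoothJ D M' hM' hfin')
        (HH2π _ _ (ptToHomZ (levelsS S) θ hθ c))).2 ⟨y, h1⟩
      rw [CxHom.hh2_mk, HH2π_eq_zero_iff] at h2
      exact h2
    · intro h
      have h2 : (homCxPost M' D.f).hh2 (levelsS S)
          (HH2π _ _ (ptToHomZ (levelsS S) θ hθ c)) = 0 := by
        rw [CxHom.hh2_mk, HH2π_eq_zero_iff]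
        exact h
      obtain ⟨y, hy⟩ := ((pta_ses D M').exact_HH2_left (pta_smoothJ D M' hM' hfin') _).1 h2
      refine ⟨y, ?_⟩
      show ptTheta (levelsS S) θ hθ (ptaConn D M' hM' hfin' y) = _
      rw [show ptaConn D M' hM' hfin' y = _ from hy, ptTheta_ptToHomZ]
  rw [hL]
  have hS := pta_shapiro2_iff D M' hM' hfin' ⟨_, hfz⟩
  rw [hS]
  refine forall_congr' fun q => ?_
  rw [pta_ev_res_eq D q θ c.1]
  exact pta_local_iff D q θ hθ hM' hfin' c

end Fermat.Agent.F4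
end MergeWrap_F4_PT_Abs_Sha
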